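import Fermat.Statements.S02

set_option autoImplicit false
open FreyPackage

namespace Fermat.Agent.S02

theorem of_coprime_b_even (a b c : ℤ) (ha : a ≠ 0) (hb : b ≠ 0) (hc : c ≠ 0) (p : ℕ)
    (pp : p.Prime) (hp5 : 5 ≤ p) (H : a ^ p + b ^ p = c ^ p) (hab : gcd a b = 1)
    (hb2 : (2 : ℤ) ∣ b) : Nonempty FreyPackage := by
  have hp_odd : Odd p := pp.odd_of_ne_two (by omega)
  have ha_odd : ¬ (2 : ℤ) ∣ a := by
    intro h2a
    have h2 : (2 : ℤ) ∣ gcd a b := dvd_gcd h2a hb2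
    rw [hab] at h2
    norm_num at h2
  have hmod : a % 4 = 1 ∨ a % 4 = 3 := by omega
  rcases hmod with h1 | h3
  · refine ⟨⟨-a, -b, -c, neg_ne_zero.mpr ha, neg_ne_zero.mpr hb, neg_ne_zero.mpr hc, p, pp, hp5,
      ?_, ?_, ?_, ?_⟩⟩
    · rw [hp_odd.neg_pow, hp_odd.neg_pow, hp_odd.neg_pow, ← H]; ring
    · rw [gcd_neg, neg_gcd]; exact hab
    · have h3' : ((3 : ℤ) : ZMod 4) = 3 := by norm_cast
      rw [← h3']
      rw [ZMod.intCast_eq_intCast_iff']
      push_cast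
      omega
    · rw [ZMod.intCast_zmod_eq_zero_iff_dvd]
      push_cast
      exact (dvd_neg).mpr hb2
  · refine ⟨⟨a, b, c, ha, hb, hc, p, pp, hp5, H, hab, ?_, ?_⟩⟩
    · have h3' : ((3 : ℤ) : ZMod 4) = 3 := by norm_cast
      rw [← h3']
      rw [ZMod.intCast_eq_intCast_iff']
      push_cast
      omega
    · rw [ZMod.intCast_zmod_eq_zero_iff_dvd]
      push_cast
      exact hb2

theorem of_coprime (a b c : ℤ) (ha : a ≠ 0) (hb : b ≠ 0) (hc : c ≠ 0) (p : ℕ)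
    (pp : p.Prime) (hp5 : 5 ≤ p) (H : a ^ p + b ^ p = c ^ p) (hab : gcd a b = 1) :
    Nonempty FreyPackage := by
  have hp_odd : Odd p := pp.odd_of_ne_two (by omega)
  have hp0 : 0 < p := by omega
  by_cases hb2 : (2 : ℤ) ∣ b
  · exact of_coprime_b_even a b c ha hb hc p pp hp5 H hab hb2
  by_cases ha2 : (2 : ℤ) ∣ a
  · refine of_coprime_b_even b a c hb ha hc p pp hp5 ?_ ?_ ha2
    · rw [add_comm]; exact H
    · rw [gcd_comm]; exact hab
  · have ha_odd : Odd a := by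
      rw [← Int.not_even_iff_odd, even_iff_two_dvd]; exact ha2
    have hb_odd : Odd b := by
      rw [← Int.not_even_iff_odd, even_iff_two_dvd]; exact hb2
    have hc_even : Even (c ^ p) := by
      rw [← H]; exact Odd.add_odd ha_odd.pow hb_odd.pow
    have hc2 : (2 : ℤ) ∣ c := by
      rw [← even_iff_two_dvd]
      exact (Int.even_pow.mp hc_even).1
    refine of_coprime_b_even a (-c) (-b) ha (neg_ne_zero.mpr hc) (neg_ne_zero.mpr hb) p pp hp5
      ?_ ?_ ((dvd_neg).mpr hc2)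
    · rw [hp_odd.neg_pow, hp_odd.neg_pow, ← H]; ring
    · rw [gcd_neg, ← gcdab_eq_gcdac hp0 H]; exact hab

theorem result (a b c : ℤ) (ha : a ≠ 0) (hb : b ≠ 0) (hc : c ≠ 0) (p : ℕ) (pp : p.Prime) (hp5 : 5 ≤ p) (H : a ^ p + b ^ p = c ^ p) : Nonempty FreyPackage := by
  have hp0 : p ≠ 0 := by omega
  have hdpos : 0 < Int.gcd a b := Int.gcd_pos_of_ne_zero_left b ha
  obtain ⟨a', b', hab', hae, hbe⟩ := Int.exists_gcd_one hdpos
  set d : ℤ := (Int.gcd a b : ℤ) with hd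
  have hd0 : d ≠ 0 := by
    rw [hd]; exact_mod_cast hdpos.ne'
  have hdc : d ∣ c := by
    rw [← Int.pow_dvd_pow_iff hp0, ← H]
    apply dvd_add
    · rw [Int.pow_dvd_pow_iff hp0]; exact Dvd.intro_left a' hae.symm
    · rw [Int.pow_dvd_pow_iff hp0]; exact Dvd.intro_left b' hbe.symm
  obtain ⟨c', hce⟩ := hdc
  have ha'0 : a' ≠ 0 := by
    rintro rfl; apply ha; rw [hae]; ring
  have hb'0 : b' ≠ 0 := by
    rintro rfl; apply hb; rw [hbe]; ring
  have hc'0 : c' ≠ 0 := by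
    rintro rfl; apply hc; rw [hce]; ring
  have H' : a' ^ p + b' ^ p = c' ^ p := by
    have hdp : d ^ p ≠ 0 := pow_ne_zero p hd0
    apply mul_left_cancel₀ hdp
    calc d ^ p * (a' ^ p + b' ^ p) = (a' * d) ^ p + (b' * d) ^ p := by ring
      _ = a ^ p + b ^ p := by rw [← hae, ← hbe]
      _ = c ^ p := H
      _ = (d * c') ^ p := by rw [hce]
      _ = d ^ p * c' ^ p := by ring
  refine of_coprime a' b' c' ha'0 hb'0 hc'0 p pp hp5 H' ?_
  rw [← Int.coe_gcd, hab']; rfl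

end Fermat.Agent.S02
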