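import Fermat.Statements.S05
import Fermat.Agent.S05.Shell
import Fermat.Agent.S05.Final
import Fermat.Agent.S05.KerRed
import Fermat.Agent.S05.TorsionHeight

set_option autoImplicit false
open WeierstrassCurve WeierstrassCurve.Affine WeierstrassCurve.Affine.Point
open CuspForm ModularFormClass UpperHalfPlane
open FreyPackage

namespace Fermat.Agent.S05

open Fermat.Agent.S05.Shell in
theorem legStatement : LegStatement := by
  apply Final.legStatement_of_parts
  · intro A α β p hp hp2 v2 vp vβ vαβ vα
    apply KerRed.torsion_integral A.valuation _ (leg_a₁ α β) (leg_a₃ α β) (leg_a₆ α β) ?_ ?_ v2 p vp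
    · rw [leg_a₂]
      exact A.valuation.map_sub_le vβ.le vα
    · rw [leg_a₄, Valuation.map_neg, Valuation.map_mul, vβ, mul_one]
      exact vα
  · intro A α β p hp hp2 hα0 v2 vp vβ vαβ vα x y h hpP hx
    have hodd : Odd p := hp.odd_of_ne_two hp2
    have hα0' : (α : AlgebraicClosure ℚ) ≠ 0 := by exact_mod_cast hα0
    exact TorsionHeight.val_of_torsion A.valuation _ (leg_a₁ α β) (leg_a₃ α β) (leg_a₆ α β)
      (leg_a₂ α β) (leg_a₄ α β) v2 vβ vα hα0' hodd h hpP hx

theorem result (P : FreyPackage) {q : ℕ} (hq : q.Prime) (hq2 : q ≠ 2) (hqp : q ≠ P.p) : P.GaloisRepUnramifiedAt q := by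
  exact Shell.result_of_leg legStatement P hq hq2 hqp

end Fermat.Agent.S05
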