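import Fermat.Statements.S07
import Fermat.Prelude.Thm_ModularForm_sturm_bound_Gamma0
import Fermat.Prelude.Thm_CongruenceSubgroup_one_mem_strictPeriods_Gamma0

set_option autoImplicit false
open WeierstrassCurve WeierstrassCurve.Affine WeierstrassCurve.Affine.Point
open CuspForm ModularFormClass UpperHalfPlane
open ModularForm

namespace Fermat.Agent.S07

open scoped MatrixGroups

theorem gamma0_two_mem_of_col_eq (g₁ g₂ : SL(2, ℤ))
    (h0 : ((g₁ 0 0 : ℤ) : ZMod 2) = ((g₂ 0 0 : ℤ) : ZMod 2))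
    (h1 : ((g₁ 1 0 : ℤ) : ZMod 2) = ((g₂ 1 0 : ℤ) : ZMod 2)) :
    g₁⁻¹ * g₂ ∈ CongruenceSubgroup.Gamma0 2 := by
  rw [CongruenceSubgroup.Gamma0_mem]
  have : (g₁⁻¹ * g₂) 1 0 = - g₁ 1 0 * g₂ 0 0 + g₁ 0 0 * g₂ 1 0 := by
    simp [Matrix.SpecialLinearGroup.coe_mul, Matrix.SpecialLinearGroup.coe_inv,
      Matrix.adjugate_fin_two, Matrix.mul_apply, Fin.sum_univ_two]
  rw [this]
  push_cast
  rw [h0, h1]
  ring

theorem gamma0_two_index_le : (CongruenceSubgroup.Gamma0 2).index ≤ 4 := by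
  classical
  let φ : SL(2, ℤ) ⧸ CongruenceSubgroup.Gamma0 2 → ZMod 2 × ZMod 2 :=
    fun q => (((q.out 0 0 : ℤ) : ZMod 2), ((q.out 1 0 : ℤ) : ZMod 2))
  have hφ : Function.Injective φ := by
    intro q₁ q₂ h
    have h0 : ((q₁.out 0 0 : ℤ) : ZMod 2) = ((q₂.out 0 0 : ℤ) : ZMod 2) := congrArg Prod.fst h
    have h1 : ((q₁.out 1 0 : ℤ) : ZMod 2) = ((q₂.out 1 0 : ℤ) : ZMod 2) := congrArg Prod.snd h
    have hmem := gamma0_two_mem_of_col_eq q₁.out q₂.out h0 h1
    have := (QuotientGroup.eq (s := CongruenceSubgroup.Gamma0 2)).mpr hmem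
    rwa [QuotientGroup.out_eq', QuotientGroup.out_eq'] at this
  have := Nat.card_le_card_of_injective φ hφ
  simpa [Subgroup.index, Nat.card_prod] using this

theorem result (f : CuspForm (CongruenceSubgroup.Gamma0 2) 2) : f = 0 := by
  have hidx := gamma0_two_index_le
  have h0 : (CuspForm.toModularFormₗ f) = 0 := by
    apply ModularForm.sturm_bound_Gamma0 2
    intro n hn
    have hn0 : n = 0 := by
      have h2 : ((2 : ℤ) * ((CongruenceSubgroup.Gamma0 2).index : ℤ)).toNat / 12 = 0 := by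
        omega
      omega
    subst hn0
    exact CuspFormClass.qExpansion_coeff_zero f one_pos
      (CongruenceSubgroup.one_mem_strictPeriods_Gamma0 2)
  apply CuspForm.toModularFormₗ_injective
  rw [h0, _root_.map_zero]

end Fermat.Agent.S07
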