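import Fermat.Statements.S10
import Fermat.Agent.Lib.Kummer.CaseIInst
import Fermat.Agent.Lib.Kummer.CaseIIDescent
import Fermat.Agent.Lib.Kummer.Frey
import Fermat.Agent.Lib.Kummer5
import Fermat.Agent.Lib.Kummer7
import Fermat.Agent.Lib.Kummer13
import Fermat.Agent.Lib.CycloPID7
import Fermat.Agent.Lib.CycloPID13

set_option autoImplicit false
open WeierstrassCurve WeierstrassCurve.Affine WeierstrassCurve.Affine.Point
open CuspForm ModularFormClass UpperHalfPlane
open FreyPackage

namespace Fermat.Agent.S10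

/-- Fermat's Last Theorem for the exponent `5` (Kummer). -/
theorem fermatLastTheoremFor_five : FermatLastTheoremFor 5 := by
  have : Fact (Nat.Prime 5) := ⟨by norm_num⟩
  have : IsCyclotomicExtension {5} ℚ (CyclotomicField 5 ℚ) :=
    CyclotomicField.isCyclotomicExtension 5 ℚ
  have : IsPrincipalIdealRing (NumberField.RingOfIntegers (CyclotomicField 5 ℚ)) :=
    IsCyclotomicExtension.Rat.five_pid (CyclotomicField 5 ℚ)
  exact Fermat.Agent.Lib.Kummer.fermatLastTheoremFor_of_kummerLemma (p := 5) (by norm_num)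
    (CyclotomicField 5 ℚ) Fermat.Agent.Lib.Kummer.caseI_five
    (Fermat.Agent.Lib.Kummer5.kummer_lemma (CyclotomicField 5 ℚ))

/-- Fermat's Last Theorem for the exponent `7` (Kummer). -/
theorem fermatLastTheoremFor_seven : FermatLastTheoremFor 7 := by
  have : Fact (Nat.Prime 7) := ⟨by norm_num⟩
  have : IsCyclotomicExtension {7} ℚ (CyclotomicField 7 ℚ) :=
    CyclotomicField.isCyclotomicExtension 7 ℚ
  have : IsPrincipalIdealRing (NumberField.RingOfIntegers (CyclotomicField 7 ℚ)) :=
    Fermat.Agent.Lib.CycloPID7.seven_pid (CyclotomicField 7 ℚ)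
  exact Fermat.Agent.Lib.Kummer.fermatLastTheoremFor_of_kummerLemma (p := 7) (by norm_num)
    (CyclotomicField 7 ℚ) Fermat.Agent.Lib.Kummer.caseI_seven
    (Fermat.Agent.Lib.Kummer7.kummer_lemma (CyclotomicField 7 ℚ))

/-- Fermat's Last Theorem for the exponent `13` (Kummer). -/
theorem fermatLastTheoremFor_thirteen : FermatLastTheoremFor 13 := by
  have : Fact (Nat.Prime 13) := ⟨by norm_num⟩
  have : IsCyclotomicExtension {13} ℚ (CyclotomicField 13 ℚ) :=
    CyclotomicField.isCyclotomicExtension 13 ℚ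
  have : IsPrincipalIdealRing (NumberField.RingOfIntegers (CyclotomicField 13 ℚ)) :=
    Fermat.Agent.Lib.CycloPID13.thirteen_pid (CyclotomicField 13 ℚ)
  exact Fermat.Agent.Lib.Kummer.fermatLastTheoremFor_of_kummerLemma (p := 13) (by norm_num)
    (CyclotomicField 13 ℚ) Fermat.Agent.Lib.Kummer.caseI_thirteen
    (Fermat.Agent.Lib.Kummer13.kummer_lemma (CyclotomicField 13 ℚ))

theorem result (P : FreyPackage) (hp : P.p = 5 ∨ P.p = 7 ∨ P.p = 13) : ¬ HasGaloisStableCofixedLine (K := AlgebraicClosure ℚ) ℚ P.freyCurve P.p := by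
  exfalso
  rcases hp with h | h | h
  · exact Fermat.Agent.Lib.Kummer.freyPackage_false_of_flt P (h ▸ fermatLastTheoremFor_five)
  · exact Fermat.Agent.Lib.Kummer.freyPackage_false_of_flt P (h ▸ fermatLastTheoremFor_seven)
  · exact Fermat.Agent.Lib.Kummer.freyPackage_false_of_flt P (h ▸ fermatLastTheoremFor_thirteen)

end Fermat.Agent.S10
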