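import Fermat.Statements.S11
import Fermat.Agent.Lib.Kummer.Defs
import Fermat.Agent.Lib.Kummer.Assembly
import Fermat.Agent.Lib.Kummer.Frey
import Fermat.Agent.Lib.Kummer.CaseIInst
import Fermat.Agent.Lib.Kummer.CaseIIDescent
import Fermat.Agent.Lib.CycloPID11
import Fermat.Agent.Lib.Kummer11

set_option autoImplicit false
open WeierstrassCurve WeierstrassCurve.Affine WeierstrassCurve.Affine.Point
open CuspForm ModularFormClass UpperHalfPlane
open FreyPackage

namespace Fermat.Agent.S11

/-- Fermat's Last Theorem for the exponent `11` (Kummer: Sophie Germain first case,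
`ℤ[ζ₁₁]` is a PID, Kummer's lemma for `11`, descent for the second case). -/
theorem fermatLastTheoremFor_eleven : FermatLastTheoremFor 11 := by
  have : Fact (Nat.Prime 11) := ⟨by norm_num⟩
  have : IsCyclotomicExtension {11} ℚ (CyclotomicField 11 ℚ) :=
    CyclotomicField.isCyclotomicExtension 11 ℚ
  have : IsPrincipalIdealRing (NumberField.RingOfIntegers (CyclotomicField 11 ℚ)) :=
    Fermat.Agent.Lib.CycloPID11.eleven_pid (CyclotomicField 11 ℚ)
  exact Fermat.Agent.Lib.Kummer.fermatLastTheoremFor_of_kummerLemma (p := 11) (by norm_num)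
    (CyclotomicField 11 ℚ) Fermat.Agent.Lib.Kummer.caseI_eleven
    (Fermat.Agent.Lib.Kummer11.kummerLemma_eleven (CyclotomicField 11 ℚ))

theorem result (P : FreyPackage) (hp : P.p = 11) : ¬ HasGaloisStableCofixedLine (K := AlgebraicClosure ℚ) ℚ P.freyCurve P.p := by
  exfalso
  exact Fermat.Agent.Lib.Kummer.freyPackage_false_of_flt P (hp ▸ fermatLastTheoremFor_eleven)

end Fermat.Agent.S11
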