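import Fermat.Statements.S13
import Fermat.Agent.S05
import Fermat.Agent.Lib.TorsionFinite
import Fermat.Agent.Lib.Frobenius
import Fermat.Agent.Lib.TorsionCard
import Fermat.Agent.Lib.InertiaBridge
import Fermat.Agent.S13.Assembly
import Fermat.Agent.S13.LocTwoFrey
import Fermat.Agent.S13.LocP
import Fermat.Agent.S13.LegP
import Fermat.Agent.S13.Ladder
import Fermat.Agent.S13.KerRedGen
import Fermat.Agent.S13.FreyInt
import Fermat.Agent.S13.Rat

set_option autoImplicit false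
open WeierstrassCurve WeierstrassCurve.Affine WeierstrassCurve.Affine.Point
open CuspForm ModularFormClass UpperHalfPlane
open FreyPackage

namespace Fermat.Agent.S13

/-- Inertia at a place over `p` acts trivially on the stable line or on the quotient by it. -/
theorem frey_locP (P : FreyPackage)
    (N : Submodule (ZMod P.p)
      (Submodule.torsionBy ℤ (P.freyCurve⁄(AlgebraicClosure ℚ)).Point P.p))
    (hN : IsGaloisStable ℚ N) (hN0 : N ≠ ⊥) (hN1 : N ≠ ⊤)
    (A : ValuationSubring (AlgebraicClosure ℚ)) (hA : A.LiesOverPrime P.p) :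
    (∀ σ : AlgebraicClosure ℚ ≃ₐ[ℚ] AlgebraicClosure ℚ, σ ∈ A.inertiaSubgroupIn ℚ →
      ∀ x ∈ N, σ • x = x) ∨
    (∀ σ : AlgebraicClosure ℚ ≃ₐ[ℚ] AlgebraicClosure ℚ, σ ∈ A.inertiaSubgroupIn ℚ →
      ∀ x : Submodule.torsionBy ℤ (P.freyCurve⁄(AlgebraicClosure ℚ)).Point P.p,
        σ • x - x ∈ N) := by
  have hpf : Fact P.p.Prime := ⟨P.pp⟩
  have hp5 := P.hp5
  have hp2 : P.p ≠ 2 := by omega
  obtain ⟨h₁, h₂, h₃, h₄, h₆⟩ := FreyInt.val_coeff_le_one P A
  have hvp : A.valuation ((P.p : ℕ) : AlgebraicClosure ℚ) < 1 := A.mem_nonunits_iff.mp hA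
  have hB := KerRedGen.intB_of_coeffs (v := A.valuation)
    (W := (P.freyCurve⁄(AlgebraicClosure ℚ))) h₁ h₂ h₃ h₄ h₆
  refine LocP.locP_of_parts P.freyCurve A P.pp hA ?_ ?_ ?_ N hN ?_
  · intro P0 x _ hP0 hx k hk
    exact KerRedGen.nsmul_of_not_dvd hB hP0 hx P.pp hvp k hk
  · intro S hS
    exact Ladder.torsion_newton_bound A.valuation _ h₁ h₂ h₃ h₄ h₆ P.p P.pp (by omega)
      (fun k hk0 hkp => FreyInt.val_natCast_eq_one A P.p P.pp hA k hk0 hkp) S hS
  · intro σ hσ Pt hPt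
    rcases LegP.frey_inertia_sub P P.pp hp2 A hA σ hσ Pt hPt with h | h
    · exact Or.inl h
    · exact Or.inr h
  · obtain ⟨x, hxN, hx0⟩ := Submodule.exists_mem_ne_zero_of_ne_bot hN0
    refine ⟨x, hxN, fun y hy => ?_⟩
    obtain ⟨a, ha⟩ := Fermat.Agent.Lib.TorsionCard.exists_smul_eq_of_mem
      (K := AlgebraicClosure ℚ) P.freyCurve P.p N hN0 hN1 hxN hx0 hy
    refine ⟨a.val, ?_⟩
    rw [ha]
    conv_lhs => rw [← ZMod.natCast_zmod_val a]
    rw [Nat.cast_smul_eq_nsmul]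

theorem result (P : FreyPackage) (hred : ¬ GaloisRepIsIrreducible (K := AlgebraicClosure ℚ) ℚ P.freyCurve P.p) : HasGaloisStableCofixedLine (K := AlgebraicClosure ℚ) ℚ P.freyCurve P.p := by
  refine Assembly.result_of_parts P
    (Fermat.Agent.Lib.TorsionCard.frey_finrank P)
    (Fermat.Agent.Lib.TorsionFinite.frey_galoisFactorsThroughFiniteLevel P)
    (fun q hq => Fermat.Agent.Lib.Frobenius.exists_liesOverPrime hq)
    ?_
    (fun q hq hq2 hqp => Fermat.Agent.S05.result P hq hq2 hqp)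
    (fun A hA σ hσ Pt hPt => LocTwoFrey.inertia_two_unipotent P A (by
      change ((2 : ℕ) : AlgebraicClosure ℚ) ∈ A.nonunits
      simpa using hA) σ hσ Pt hPt)
    (fun N hN hN0 hN1 A hA => frey_locP P N hN hN0 hN1 A hA)
    (fun Q hQ hpQ hfix => Rat.no_fixed_torsion P Q hQ hpQ hfix)
    hred
  intro H hHn ⟨L, hLfin, hL⟩ hI
  have := hHn
  have := hLfin
  exact Fermat.Agent.Lib.InertiaBridge.eq_top_of_inertia_le H L
    (fun σ hσ => hL σ (fun x hx => hσ ⟨x, hx⟩)) hI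

end Fermat.Agent.S13
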