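-- Statement S23: `CuspForm.HasIntegralStructure N 2` (the space of weight-2 cusp forms on `Γ₀(N)`
-- is spanned by forms with integral `q`-expansion).
import Fermat.Statements.S23
import Fermat.Agent.S23.Wiring
import Fermat.Agent.S23.Fraction
import Fermat.Agent.S23.NormPoly
import Fermat.Agent.S23.Integrality
import Fermat.Agent.S23.LevelOneSpan

set_option autoImplicit false
open CuspForm

namespace Fermat.Agent.S23

theorem result (N : ℕ) [NeZero N] : CuspForm.HasIntegralStructure N 2 :=
  Wiring.hasIntegralStructure_of_parts N 2
    (fun f => Fraction.exists_fraction N 2 f)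
    (fun f => exists_norm_polynomial N f)
    (fun K g => LevelOneSpan.cusp_mem_span K g)
    (fun P Q hQ n c h => Integrality.integrality_criterion N P Q hQ n c h)

end Fermat.Agent.S23
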