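-- Statement S16 (row 15): the index of the Eisenstein ideal in the integral Hecke algebra of
-- weight 2 and level p equals (p-1)/gcd(p-1,12).
-- Assembly: frame + lower bound (LBFrame) and the upper bound from the eight case bricks (UB).
import Fermat.Statements.S16
import Fermat.Agent.S16.LBFrame
import Fermat.Agent.S16.UB.Wire
import Fermat.Agent.S16.UB.CaseL
import Fermat.Agent.S16.UB.CaseP
import Fermat.Agent.S16.UB.Case3b
import Fermat.Agent.S16.UB.Case3a2a
import Fermat.Agent.S16.UB.Case2b

set_option autoImplicit false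
open ModularCurve CuspForm
open ModularCurve

namespace Fermat.Agent.S16

theorem result
    (p : ℕ) [Fact p.Prime] :
    Nat.card (↥(heckeLatticeAlgebra p ∅) ⧸
        Ideal.map ((latticeRestrictHom p ∅).toRingHom.comp (heckeEvalForms p 2))
          (eisensteinIdeal p)) =
      eisensteinNumerator p :=
  Fermat.Agent.S16.LBFrame.card_eq_of_upper p
    (Fermat.Agent.S16.UB.Wire.upper_bound_of_cases p
      (fun l hl h5 hlp => Fermat.Agent.S16.UB.CaseL.not_unitMod p l hl h5 hlp)
      (fun h5 => Fermat.Agent.S16.UB.CaseP.not_unitMod_self p h5)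
      (fun h3 => by subst h3; exact Fermat.Agent.S16.UB.CaseP.not_unitMod_three)
      (fun h2 => by subst h2; exact Fermat.Agent.S16.UB.CaseP.not_unitMod_two)
      (fun h3 h => Fermat.Agent.S16.UB.Case3a2a.hB3a p h3 h)
      (fun h3 => Fermat.Agent.S16.UB.Case3b.not_unitMod p h3)
      (fun h2 h => Fermat.Agent.S16.UB.Case3a2a.hB2a p h2 h)
      (fun h => Fermat.Agent.S16.UB.Case2b.not_unitMod p h))

end Fermat.Agent.S16
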