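import Fermat.Statements.S17
import Fermat.Agent.S17.Contract
import Fermat.Agent.S17.D.Exit
import Fermat.Agent.S17.W.Exit
import Fermat.Agent.S17.H.Exit

set_option autoImplicit false
open ModularCurve AlgebraicCurve
open ModularCurve ModularCurve.JZero

namespace Fermat.Agent.S17

theorem result (N : ℕ) [NeZero N] (hN : N.Prime) (hN5 : 5 ≤ N) :
    AddGroup.FG ↥(FixedPoints.addSubgroup ((AlgebraicClosure ℚ) ≃ₐ[ℚ] (AlgebraicClosure ℚ)) (JZero N)) := by
  have hD : Divisible N := D.divisible N hN hN5
  exact result_of_contract N (W.weakMW_of_divisible N hN hN5 hD) (H.Exit.heightDescent N)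

end Fermat.Agent.S17
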