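-- Statement S19 (row 18): `ModularCurve.exists_finiteFlat_model_jZero_torsion`.
-- Assembly (Program FG): `S19/Contract.result_of_contract` applied to the five strands
--   (FIN)   `TorsionFinite.finite_torsion_prime_pow`
--   (LEVEL) `TorsionLevel.levelStatement`
--   (AUX)   `AuxLevel.aux`
--   (GEOM)  `Cech.Exit.geomStatement_of_cech` at `Cech.CechFromKummer.cechStatement` (two-chart Kummer-Cech producer)
--   (RED)   `Red.DualLattice.contract_red_dual`
import Fermat.Statements.S19
import Fermat.Agent.S19.Contract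
import Fermat.Agent.S19.TorsionFinite
import Fermat.Agent.S19.TorsionLevel
import Fermat.Agent.S19.AuxLevel
import Fermat.Agent.S19.Cech.Exit
import Fermat.Agent.S19.Red.DualLattice.Final
import Fermat.Agent.S19.Cech.CechFromKummer

set_option autoImplicit false
open ModularCurve
open ModularCurve

namespace Fermat.Agent.S19

theorem result
    (p : ℕ) [NeZero p] (ℓ : ℕ) [Fact ℓ.Prime] (hℓp : ¬ ℓ ∣ p) (k : ℕ) :
    ∃ (H : Type) (_ : CommRing H) (_ : HopfAlgebra (GaloisRep.ratLocalizedAt ℓ) H),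
      Module.Finite (GaloisRep.ratLocalizedAt ℓ) H ∧ Module.Flat (GaloisRep.ratLocalizedAt ℓ) H ∧
      Coalgebra.IsCocomm (GaloisRep.ratLocalizedAt ℓ) H ∧
      ∃ e : WithConv (H →ₐ[GaloisRep.ratLocalizedAt ℓ] AlgebraicClosure ℚ) ≃
          ↥(Submodule.torsionBy ℤ (JZero p) ((ℓ : ℤ) ^ k)),
        (∀ f g, e (f * g) = e f + e g) ∧
        ∀ (σ : AlgebraicClosure ℚ ≃ₐ[ℚ] AlgebraicClosure ℚ)
          (f g : WithConv (H →ₐ[GaloisRep.ratLocalizedAt ℓ] AlgebraicClosure ℚ)),
          (∀ h : H, g h = σ (f h)) → ((e g : JZero p)) = σ • (e f : JZero p) :=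
  Fermat.Agent.S19.Contract.result_of_contract
    Fermat.Agent.S19.TorsionFinite.finite_torsion_prime_pow
    Fermat.Agent.S19.TorsionLevel.levelStatement
    Fermat.Agent.S19.AuxLevel.aux
    (Fermat.Agent.S19.Cech.Exit.geomStatement_of_cech
      Fermat.Agent.S19.TorsionFinite.finite_torsion_prime_pow
      Fermat.Agent.S19.Cech.CechFromKummer.cechStatement)
    Fermat.Agent.S19.Red.DualLattice.contract_red_dual p ℓ hℓp k

end Fermat.Agent.S19
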