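import Fermat.Statements.S24
import Fermat.Agent.S24.Generic.G2
import Fermat.Agent.S24.Comb.Numerics
import Fermat.Agent.S24.Modular.M0
import Fermat.Agent.S24.Modular.M3
import Fermat.Agent.S24.Modular.M4
import Fermat.Agent.S24.Modular.M5
import Fermat.Agent.S24.Modular.M6
import Fermat.Agent.S24.Modular.M7
import Fermat.Agent.S24.Modular.MG1

set_option autoImplicit false
open ModularCurve

namespace Fermat.Agent.S24

open AlgebraicCurve IntermediateField
open Fermat.Agent.S24.Modular Fermat.Agent.S24.Generic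

theorem result (N : ℕ) [NeZero N]
    [AlgebraicCurve.HasCanonicalDivisor (K := AlgebraicClosure ℚ) (F := ↥(ModularCurve.modularFunctionFieldBar N))] :
    (AlgebraicCurve.genus (AlgebraicClosure ℚ) ↥(ModularCurve.modularFunctionFieldBar N) : ℚ)
      = ModularCurve.genusFormula N := by
  classical
  have hx := transcendental_jF N
  have htr := trdeg_FN N
  have hfin : FiniteDimensional Kbar⟮jF N⟯ (FN N) :=
    Fermat.Agent.S24.FF.finite_adjoin_simple htr hx
  have hex := exists_differential_ne_zero N
  have hn := finrank_jF N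
  have h1728 := card_fibre_1728 N
  have h0 := card_fibre_zero N
  have hinf := card_fibre_infty N
  have hdeg := degree_canonicalDivisorOf_eq htr (jF N) hx hfin ({0, 1728} : Finset Kbar)
    (fun a ha => by
      simp only [Finset.mem_insert, Finset.mem_singleton, not_or] at ha
      rw [card_fibre_generic N a ha.1 ha.2, hn]) (ω := hex.choose) hex.choose_spec
  have hne : (0 : Kbar) ≠ 1728 := by norm_num
  rw [Finset.sum_pair hne, hn, hinf] at hdeg
  unfold AlgebraicCurve.genus
  rw [dif_pos hex, hdeg]
  unfold genusFormula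
  set r0 := Nat.card {v : Place Kbar (FN N) // 0 < v.ord (jF N - algebraMap Kbar (FN N) 0)}
    with hr0
  set r1 := Nat.card {v : Place Kbar (FN N) // 0 < v.ord (jF N - algebraMap Kbar (FN N) 1728)}
    with hr1
  obtain ⟨g, hg⟩ := Fermat.Agent.S24.Comb.genus_numerics N r0 r1 h0 h1728
  have e1 : ((dedekindPsi N : ℤ) - r0 + (dedekindPsi N - r1) - dedekindPsi N - cuspCount N + 2)
      = ((2 * g : ℕ) : ℤ) := by
    have : ((dedekindPsi N + 2 : ℕ) : ℤ) = ((r0 + r1 + cuspCount N + 2 * g : ℕ) : ℤ) := by
      rw [hg]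
    push_cast at this ⊢
    linarith
  rw [e1, Int.toNat_natCast, Nat.mul_div_cancel_left g (by norm_num : 0 < 2)]
  have hq0 : (3 : ℚ) * r0 = dedekindPsi N + 2 * nuThree N := by exact_mod_cast h0
  have hq1 : (2 : ℚ) * r1 = dedekindPsi N + nuTwo N := by exact_mod_cast h1728
  have hqg : (dedekindPsi N : ℚ) + 2 = r0 + r1 + cuspCount N + 2 * g := by exact_mod_cast hg
  linarith

end Fermat.Agent.S24
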