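import Fermat.Statements.S27
import Fermat.Agent.S27.Contract
import Fermat.Agent.S27.F.ExitAlg
import Fermat.Agent.S27.M.Trdeg
import Fermat.Agent.S27.G.AsmC
import Fermat.Agent.S27.C.CarrierExit
import Fermat.Agent.S27.C.UniqueExit

set_option autoImplicit false
set_option autoImplicit false
open AlgebraicCurve
open AlgebraicCurve AlgebraicCurve.Pic0

namespace Fermat.Agent.S27

theorem result
    (K F : Type*) [Field K] [Field F] [Algebra K F] [IsAlgClosed K] [CharZero K]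
    [IsCurveOver K F] [Algebra.EssFiniteType K F]
    (ℓ : ℕ) [Fact ℓ.Prime] (k : ℕ) :
    Nat.card (Pic0.torsion K F (ℓ ^ k)) = ℓ ^ (2 * genusFF K F * k) := by
  have hℓ : ℓ.Prime := Fact.out
  have htr : Algebra.trdeg K F = 1 := Fermat.Agent.S27.M.Trdeg.trdeg_eq_one K F
  obtain ⟨hU, hL⟩ := Fermat.Agent.S27.G.AsmC.bounds_of_C htr ℓ hℓ.two_le
    (fun δ hδ e₁ e₂ n hn he =>
      Fermat.Agent.S27.C.CarrierExit.carrierExit htr e₁ e₂ n hn he δ hδ)
    (fun δ _ e₁ e₂ n hn he =>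
      Fermat.Agent.S27.C.UniqueExit.uniqueExit htr e₁ e₂ n hn he δ)
  exact result_of_contract K F ℓ k htr hU hL (Fermat.Agent.S27.F.ExitAlg.exitAlg K F ℓ hℓ)

end Fermat.Agent.S27
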