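-- Statement S28 (Igusa: the fibre of the Igusa scheme over a field of characteristic ℓ ∤ N is integral).
-- Proof assembled from the S28 team's modules (blueprint of helper148):
--   Glue/Tensor/Reduce (scheme glue and tensor step), GaussRing + QEPInst (q-expansion principle),
--   Core (modular unit: degree over ℚ(j) and over 𝔽_ℓ(j)).
import Fermat.Statements.S28
import Fermat.Agent.S28.Reduce
import Fermat.Agent.S28.Core
import Fermat.Agent.S28.GaussRing
import Fermat.Agent.S28.QEPInst

set_option autoImplicit false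
open AlgebraicGeometry CategoryTheory CategoryTheory.Limits ModularCurve ModularCurve.IgusaScheme
noncomputable section
set_option autoImplicit false
open ModularCurve ModularCurve.IgusaScheme

namespace Fermat.Agent.S28

/-- The Gauss ring of `GaussRing` packaged for `QEPInst`. -/
def gaussData (ℓ : ℕ) [Fact ℓ.Prime] : QEPInst.GaussData ℓ where
  V := GaussRing.V ℓ
  red := GaussRing.red ℓ
  mem_of_int := GaussRing.mem_of_int ℓ
  red_of_int := GaussRing.red_of_int ℓ
  ker := GaussRing.ker ℓ
  closed := GaussRing.closed ℓ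

set_option maxHeartbeats 4000000 in
set_option synthInstance.maxHeartbeats 400000 in
theorem result
    (N : ℕ) [NeZero N] (ℓ : ℕ) [Fact ℓ.Prime] (hℓN : ¬ ℓ ∣ N)
    (K : Type) [Field K] [CharP K ℓ] [Algebra ↥(GaloisRep.ratLocalizedAt ℓ) K] :
    IsIntegral ↑(pullback (igusaTo N ℓ)
      (Spec.map (CommRingCat.ofHom (algebraMap ↥(GaloisRep.ratLocalizedAt ℓ) K)))) := by
  obtain ⟨m, hQ, hgen, hind⟩ := Core.core N ℓ hℓN
  rw [← Char0.coeffMap_ev (Int.castRingHom ℚ) N (Defs.unitPoly N)] at hQ hgen
  rw [← Char0.coeffMap_ev (Int.castRingHom (ZMod ℓ)) N (Defs.unitPoly N)] at hind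
  obtain ⟨hFin, hInf, hMid⟩ :=
    QEPInst.hasReduction_of_core N (gaussData ℓ) (Defs.ev ℤ N (Defs.unitPoly N)) m hQ hgen hind
  exact Reduce.isIntegral_pullback_of_hasReduction N ℓ K hFin hInf hMid

end Fermat.Agent.S28
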