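-- FINAL Fermat/Agent/S32.lean (helper246 draft v2; type-checked 20:58Z against a stub of (BASE) and
-- the frozen S19 TYPE: the frozen S19 at (N, p, hpN, k) is LITERALLY `Main.S19At N p k`).
-- To land ONLY when Fermat/Agent/S19.lean (result) is on main.
-- Imports: S19 (result) + S32/Final (helper246: isFlatAt_of_S19At; = Link/Base + Main).
import Fermat.Statements.S32
import Fermat.Agent.S19
import Fermat.Agent.S32.Final

set_option autoImplicit false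
variable {p : ℕ} {N : ℕ} [NeZero N] {S : Finset ℕ}
  {𝒪 : Type} [CommRing 𝒪] [IsDomain 𝒪] [IsDiscreteValuationRing 𝒪]
  [IsAdicComplete (IsLocalRing.maximalIdeal 𝒪) 𝒪]
  {θ : CuspForm.heckeAlgebra N 2 (↑S : Set ℕ) →+* IsLocalRing.ResidueField 𝒪}
  {T : Type} [CommRing T] [IsLocalRing T] [IsNoetherianRing T]
  [IsAdicComplete (IsLocalRing.maximalIdeal T) T] [Algebra 𝒪 T] [IsLocalHom (algebraMap 𝒪 T)]
  [Module.Finite 𝒪 T] [Module.Free 𝒪 T]
open CuspForm CuspForm.HeckeGaloisRepDatum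

namespace Fermat.Agent.S32

theorem result
    [Finite (IsLocalRing.ResidueField 𝒪)] [CharZero 𝒪]
    (hp : p.Prime) (hp2 : p ≠ 2) (hp𝒪 : (p : 𝒪) ∈ IsLocalRing.maximalIdeal 𝒪) (hpN : ¬ p ∣ N)
    (hpS : p ∈ S) (hNS : ∀ q : ℕ, q.Prime → q ∣ N → q ∈ S)
    (H : CuspForm.HeckeGaloisRepDatum N (↑S : Set ℕ) 𝒪 θ T) :
    H.ρ.IsFlatAt p := by
  have : Fact p.Prime := ⟨hp⟩
  exact Fermat.Agent.S32.Final.isFlatAt_of_S19At hp hp𝒪 hpS hNS H
    (fun k => Fermat.Agent.S19.result N p hpN k)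

end Fermat.Agent.S32
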