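-- Statement S35 (row 34): a weight-2 newform of level M has an attached lambda-adic Galois
-- representation with Frobenius characteristic polynomial X^2 - a_l X + l at good primes outside S and
-- (X - 1)(X - q) or (X + 1)(X + q) at every prime q != lambda exactly dividing M.
-- The statement below is byte-identical to the frozen statement CuspForm.IsNewform.FermatFrozen.S35.
-- Proof: Program U / S35 (captain helper189, S35 sub-captain helper94). Chain:
--   FrobGt3.frobRootGt3 (helper133) + FrobSmall.frobRootSmall (helper43)   [E-level nodal datum + Frobenius swap]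
--   => DescendFrob (helper133) + AuxFrob (helper94) => ConcreteFinal.nonempty_ssData (helper13)
--   => Final.result_of_ssData' / FinalCases.result_of_cases (helper94) on the S30 engine.
import Fermat.Statements.S35
import Fermat.Agent.S35.FinalCases
import Fermat.Agent.S35.FrobGt3
import Fermat.Agent.S35.FrobSmallExit

set_option autoImplicit false
set_option autoImplicit false
open Polynomial
open CuspForm CuspForm.IsNewform

namespace Fermat.Agent.S35

theorem result
    {M : ℕ} [NeZero M] {g : CuspForm (CongruenceSubgroup.Gamma0 M) 2} (hg : g.IsNewform)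
    (lam : ℕ) [Fact lam.Prime]
    (S : Finset ℕ)
    (O' : Type) [CommRing O'] [IsDomain O'] [IsDiscreteValuationRing O']
    [IsAdicComplete (IsLocalRing.maximalIdeal O') O'] [Finite (IsLocalRing.ResidueField O')]
    [CharZero O'] (hlamO' : (lam : O') ∈ IsLocalRing.maximalIdeal O')
    (chig : CuspForm.heckeAlgebra M 2 (↑S : Set ℕ) →+* ℂ)
    (hchig : ∀ (ℓ : ℕ) (hℓ : ℓ.Prime) (hℓM : ¬ ℓ ∣ M) (hℓS : ℓ ∉ (↑S : Set ℕ)),
      chig (CuspForm.heckeAlgebra.T hℓ hℓM hℓS) = ModularFormClass.qCoeff g ℓ)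
    (iota : chig.range →+* O')
    (hlamS : lam ∈ S) (hMS : ∀ q : ℕ, q.Prime → q ∣ M → q ∈ S)
    :
    ∃ (O'' : Type) (_ : CommRing O'') (_ : IsDomain O'') (_ : IsDiscreteValuationRing O'')
      (_ : IsAdicComplete (IsLocalRing.maximalIdeal O'') O'') (_ : Finite (IsLocalRing.ResidueField O''))
      (_ : CharZero O'') (_ : Algebra O' O'') (_ : Module.Finite O' O'') (_ : IsLocalHom (algebraMap O' O'')),
      Function.Injective (algebraMap O' O'') ∧
      ∃ ρ : GaloisRepAdic O'',
        (∀ (ℓ : ℕ) (hℓ : ℓ.Prime) (hℓM : ¬ ℓ ∣ M) (hℓS : ℓ ∉ (↑S : Set ℕ)),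
          ∀ A : ValuationSubring (AlgebraicClosure ℚ), A.LiesOverPrime ℓ →
            ∀ σ : AlgebraicClosure ℚ ≃ₐ[ℚ] AlgebraicClosure ℚ, A.IsFrobeniusAt σ ℓ →
              LinearMap.charpoly (ρ.ρ σ) =
                X ^ 2 - C (algebraMap O' O'' ((iota.comp chig.rangeRestrict) (CuspForm.heckeAlgebra.T hℓ hℓM hℓS))) * X
                  + C ((ℓ : O''))) ∧
        (∀ q : ℕ, q.Prime → q ≠ lam → q ∣ M → ¬ q ^ 2 ∣ M →
          ∀ A : ValuationSubring (AlgebraicClosure ℚ), A.LiesOverPrime q →
            ∀ σ : AlgebraicClosure ℚ ≃ₐ[ℚ] AlgebraicClosure ℚ, A.IsFrobeniusAt σ q →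
              LinearMap.charpoly (ρ.ρ σ) = X ^ 2 - C ((q : O'') + 1) * X + C ((q : O'')) ∨
              LinearMap.charpoly (ρ.ρ σ) = X ^ 2 + C ((q : O'') + 1) * X + C ((q : O''))) :=
  Fermat.Agent.S35.FinalCases.result_of_cases Fermat.Agent.S35.FrobGt3.frobRootGt3
    Fermat.Agent.S35.FrobSmall.frobRootSmall hg lam S O' hlamO' chig hchig iota hlamS hMS

end Fermat.Agent.S35
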