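import Fermat.Statements.S36
import Fermat.Agent.S36.GeomTop
import Fermat.Agent.S36.GeomExitFinal

set_option autoImplicit false
set_option autoImplicit false
open Polynomial
open CuspForm CuspForm.IsNewform

namespace Fermat.Agent.S36

theorem result
    {M : ℕ} [NeZero M] {g : CuspForm (CongruenceSubgroup.Gamma0 M) 2} (hg : g.IsNewform)
    (lam : ℕ) [Fact lam.Prime]
    (S : Finset ℕ)
    (O' : Type) [CommRing O'] [IsDomain O'] [IsDiscreteValuationRing O']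
    [IsAdicComplete (IsLocalRing.maximalIdeal O') O'] [Finite (IsLocalRing.ResidueField O')]
    [CharZero O'] (hlamO' : (lam : O') ∈ IsLocalRing.maximalIdeal O')
    (hlam2 : lam ≠ 2)
    (chig : CuspForm.heckeAlgebra M 2 (↑S : Set ℕ) →+* ℂ)
    (hchig : ∀ (ℓ : ℕ) (hℓ : ℓ.Prime) (hℓM : ¬ ℓ ∣ M) (hℓS : ℓ ∉ (↑S : Set ℕ)),
      chig (CuspForm.heckeAlgebra.T hℓ hℓM hℓS) = ModularFormClass.qCoeff g ℓ)
    (iota : chig.range →+* O')
    (hlamS : lam ∈ S) (hMS : ∀ q : ℕ, q.Prime → q ∣ M → q ∈ S)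
    (hres : ∀ (O'' : Type) [CommRing O''] [IsDomain O''] [IsDiscreteValuationRing O'']
      [IsAdicComplete (IsLocalRing.maximalIdeal O'') O''] [Finite (IsLocalRing.ResidueField O'')] [CharZero O'']
      [Algebra O' O''] [Module.Finite O' O''] [IsLocalHom (algebraMap O' O'')],
      Function.Injective (algebraMap O' O'') → ∀ (ρ : GaloisRepAdic O''),
      (∀ (ℓ : ℕ) (hℓ : ℓ.Prime) (hℓlam : ℓ ≠ lam) (hℓM : ¬ ℓ ∣ M) (hℓS : ℓ ∉ (↑S : Set ℕ)),
        ∀ A : ValuationSubring (AlgebraicClosure ℚ), A.LiesOverPrime ℓ →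
          ∀ σ : AlgebraicClosure ℚ ≃ₐ[ℚ] AlgebraicClosure ℚ, A.IsFrobeniusAt σ ℓ →
            LinearMap.charpoly (ρ.ρ σ) =
              X ^ 2 - C (algebraMap O' O'' ((iota.comp chig.rangeRestrict) (CuspForm.heckeAlgebra.T hℓ hℓM hℓS))) * X
                + C ((ℓ : O'')))
      → ρ.residual.IsAbsolutelyIrreducible ∧ ρ.residual.IsOdd)
    :
    ∃ (O'' : Type) (_ : CommRing O'') (_ : IsDomain O'') (_ : IsDiscreteValuationRing O'')
      (_ : IsAdicComplete (IsLocalRing.maximalIdeal O'') O'') (_ : Finite (IsLocalRing.ResidueField O''))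
      (_ : CharZero O'') (_ : Algebra O' O'') (_ : Module.Finite O' O'') (_ : IsLocalHom (algebraMap O' O'')),
      Function.Injective (algebraMap O' O'') ∧
      ∃ ρ : GaloisRepAdic O'',
        (∀ (ℓ : ℕ) (hℓ : ℓ.Prime) (hℓM : ¬ ℓ ∣ M) (hℓS : ℓ ∉ (↑S : Set ℕ)),
          ∀ A : ValuationSubring (AlgebraicClosure ℚ), A.LiesOverPrime ℓ →
            ∀ σ : AlgebraicClosure ℚ ≃ₐ[ℚ] AlgebraicClosure ℚ, A.IsFrobeniusAt σ ℓ →
              LinearMap.charpoly (ρ.ρ σ) =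
                X ^ 2 - C (algebraMap O' O'' ((iota.comp chig.rangeRestrict) (CuspForm.heckeAlgebra.T hℓ hℓM hℓS))) * X
                  + C ((ℓ : O''))) ∧
        (∀ q : ℕ, q.Prime → q ≠ lam → M.factorization q = 2 → ¬ ρ.IsUnipotentOnInertiaAt q) :=
  Fermat.Agent.S36.GeomTop.result_of_geomExit Fermat.Agent.S36.GeomExitFinal.geomExit
    hg lam S O' hlamO' hlam2 chig hchig iota hlamS hMS hres

end Fermat.Agent.S36
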