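-- Statement S42 (row 40): eigenform residual attachment for a Frey package at every level.
-- Proof: `S42.Final.result_of_S30` (helper42) applied to `Fermat.Agent.S30.result`.
import Fermat.Statements.S42
import Fermat.Agent.S42.Final
import Fermat.Agent.S30

set_option autoImplicit false
open FreyPackage

namespace Fermat.Agent.S42

theorem result (P : FreyPackage) :
    ∀ M : ℕ, 0 < M → P.EigenformResidualAttachmentAt M :=
  Fermat.Agent.S42.Final.result_of_S30 @Fermat.Agent.S30.result P

end Fermat.Agent.S42
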