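-- Statement S44 (row 38): level lowering at `p` for the Frey representation at its conductor
-- level (PROGRAM MR).  The theorem below is the frozen statement
-- FreyPackage.level_lowering_at_p_of_conductorLevel, proved from the strand contract
-- `Fermat.Agent.S44.Contract.result_of_contract`.
import Fermat.Statements.S44
import Fermat.Agent.S44.Inputs
import Fermat.Agent.S44.G.GFinal
import Fermat.Agent.S44.W.Final
import Fermat.Agent.S44.D.Final
import Fermat.Agent.S44.L.Red
import Fermat.Agent.S44.L.Slope.Exit
import Fermat.Agent.S44.L.Alt.Rho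
import Fermat.Agent.S44.L.Alt.FinalE
import Fermat.Agent.S44.L.NZ.EisFinal
import Fermat.Agent.S44.L.NZ.ClosedPoint

set_option autoImplicit false
open WeierstrassCurve WeierstrassCurve.Affine WeierstrassCurve.Affine.Point
open CuspForm ModularFormClass UpperHalfPlane
open FreyPackage

namespace Fermat.Agent.S44

theorem result (P : FreyPackage) {N : ℕ} (hcond : P.IsConductorLevel N) (hpN : P.p ∣ N) (hirr : GaloisRepIsIrreducible (K := AlgebraicClosure ℚ) ℚ P.freyCurve P.p) (hmod : P.ModularRepOfLevel N) : ∃ M : ℕ, M ∣ N ∧ ¬ P.p ∣ M ∧ P.ModularRepOfLevel M :=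
  Contract.result_of_contract G.GFinal.gStatement W.Final.wStatement
    (L.Slope.Exit.lStatement_of_two
      (L.Alt.Rho.slopeMStatement_of_rho L.Red.redStatement L.Alt.FinalE.slopeRhoEisWStatement)
      (L.NZ.EisFinal.nzCoreStatement_of_closedPoint L.NZ.ClosedPoint.closedPointStatement))
    D.Final.dStatement Inputs.neStatement Inputs.placeStatement P hcond hpN hirr hmod

end Fermat.Agent.S44
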