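import Fermat.Statements.S48
import Fermat.Agent.S48.FinalB
import Fermat.Agent.S48.G1.Producer1.ExitBG
import Fermat.Agent.S48.G1.K1.GaussJ1

set_option autoImplicit false
set_option autoImplicit false
open CongruenceSubgroup
open scoped MatrixGroups
local notation "Γℚ" => (AlgebraicClosure ℚ ≃ₐ[ℚ] AlgebraicClosure ℚ)
open DeligneSerre

namespace Fermat.Agent.S48

theorem result
    (N : ℕ) [NeZero N] (ε : DirichletCharacter ℂ N) (f : CuspForm (Gamma1 N) 1)
    (hf₁ : ModularFormClass.qCoeff f 1 = 1)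
    (hT : ∀ p : ℕ, p.Prime → ¬ p ∣ N → ∀ n : ℕ,
        ModularFormClass.qCoeff f (p * n) +
            ε (p : ZMod N) * (if p ∣ n then ModularFormClass.qCoeff f (n / p) else 0) =
          ModularFormClass.qCoeff f p * ModularFormClass.qCoeff f n) :
    ∃ ρ : Γℚ →* GL (Fin 2) ℂ, GaloisFactorsThroughFiniteLevel ρ ∧
      (Deformation.matrixRepresentation ρ).IsIrreducible ∧
      ∀ p : ℕ, p.Prime → ¬ p ∣ N →
        ∀ A : ValuationSubring (AlgebraicClosure ℚ), A.LiesOverPrime p →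
          (∀ σ ∈ A.inertiaSubgroupIn ℚ, ρ σ = 1) ∧
          ∀ σ : Γℚ, A.IsFrobeniusAt σ p →
            ((ρ σ : GL (Fin 2) ℂ) : Matrix (Fin 2) (Fin 2) ℂ).trace = ModularFormClass.qCoeff f p ∧
            ((ρ σ : GL (Fin 2) ℂ) : Matrix (Fin 2) (Fin 2) ℂ).det = ε (p : ZMod N) :=
  Fermat.Agent.S48.FinalB.conclusion_of_producerB
    (fun M l _ _ hl h23 =>
      Fermat.Agent.S48.G1.Producer1.ExitB.producerExitB_of_gaussJ1
        (fun M' hM' h23' => Fermat.Agent.S48.G1.K1.GaussJ1.gaussJ1 M' hM' h23') M l hl h23)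
    N ε f hf₁ hT

end Fermat.Agent.S48
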