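import Fermat.Statements.S49
import Fermat.Agent.S49.EigenLift
import Fermat.Agent.S49.LyingOver
import Fermat.Agent.S49.Finiteness
import Fermat.Agent.S49.PartB
import Fermat.Agent.S49.Eigenvector

set_option autoImplicit false
open CuspForm EisensteinWeightOne CongruenceSubgroup ModularFormClass
open FLT FLT.AbstractIntegralStructure

namespace Fermat.Agent.S49

theorem result
    {N : ℕ} [NeZero N] (h : CuspForm.HasIntegralBasis N) {a : ℕ → ℤ}
    (heig : FormalHecke.IsEigensystem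
      (fun ℓ => if ℓ ∣ N then 0 else ((chiNegThree ℓ : ℤ) : ℤ)) a)
    (hreal : CuspForm.IsLatticeRealized N a) :
    ∃ (f : CuspForm (Gamma0 N) 2) (_ : f.IsNormalizedEigenform)
      (𝔪' : Ideal (integralClosure ℤ ℂ)), 𝔪'.IsMaximal ∧
      ((3 : ℕ) : integralClosure ℤ ℂ) ∈ 𝔪' ∧
      ∀ (ℓ : ℕ) (_ : ℓ.Prime) (_ : ¬ ℓ ∣ N),
        ∃ c : integralClosure ℤ ℂ, (c : ℂ) = ModularFormClass.qCoeff f ℓ ∧
          c - (a ℓ : integralClosure ℤ ℂ) ∈ 𝔪' := by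
  have hfd : FiniteDimensional ℂ (CuspForm (Gamma0 N) 2) :=
    Finiteness.finiteDimensional_of_hasIntegralBasis h
  obtain ⟨𝔪, h𝔪max, h3, hTℓ⟩ := PartB.exists_maximal_ideal heig hreal
  have hnt : Nontrivial (CuspForm (Gamma0 N) 2) := by
    by_contra hcon
    rw [not_nontrivial_iff_subsingleton] at hcon
    apply h𝔪max.ne_top
    rw [Ideal.eq_top_iff_one]
    have h10 : (1 : CuspForm.heckeAlgebra N 2 ∅) = 0 :=
      Subtype.ext (LinearMap.ext fun x => Subsingleton.elim _ _)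
    rw [h10]
    exact 𝔪.zero_mem
  let ρ : CuspForm.heckeAlgebra N 2 ∅ →+* Module.End ℂ (CuspForm (Gamma0 N) 2) :=
    (CuspForm.heckeAlgebra N 2 ∅).subtype
  obtain ⟨ψ, v, hv0, hψv, hker⟩ :=
    exists_eigen_ker_le ρ Subtype.val_injective 𝔪
  obtain ⟨f, hfnorm, hfℓ⟩ :=
    Eigenvector.exists_normalized_eigenform_of_character v hv0 ψ hψv
  have hintT : Algebra.IsIntegral ℤ (CuspForm.heckeAlgebra N 2 ∅) :=
    Finiteness.isIntegral_heckeAlgebra_of_hasIntegralBasis ∅ h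
  have hint : ∀ t, IsIntegral ℤ (ψ t) := fun t =>
    (Algebra.IsIntegral.isIntegral (R := ℤ) t).map ψ.toIntAlgHom
  obtain ⟨ψ', 𝔪', h𝔪'max, hψ', hmem⟩ := exists_maximal_over ψ hint 𝔪 hker
  refine ⟨f, hfnorm, 𝔪', h𝔪'max, ?_, ?_⟩
  · have h3' := hmem 3 h3
    rw [map_ofNat] at h3'
    rw [Nat.cast_ofNat]
    exact h3'
  · intro ℓ hℓ hℓN
    refine ⟨ψ' (CuspForm.heckeAlgebra.T hℓ hℓN (Set.notMem_empty _)), ?_, ?_⟩
    · rw [hψ', hfℓ ℓ hℓ hℓN]
    · have hm := hmem _ (hTℓ ℓ hℓ hℓN)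
      rw [map_sub, map_intCast] at hm
      exact hm

end Fermat.Agent.S49
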