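-- Statement S52 (row 46): the 3-5 switch curve.
-- The statement below is byte-identical to the frozen statement WeierstrassCurve.FermatFrozen.S52
-- (Fermat/Statements/S52.lean; the theorem WeierstrassCurve.threeFiveSwitchCurve).
import Fermat.Statements.S52
import Fermat.Agent.S52.Glue.Assembly
import Fermat.Agent.S52.Fam.Homog
import Fermat.Agent.S52.Fam.HomogCovH
import Fermat.Agent.S52.Fam.HomogCovT
import Fermat.Agent.S52.Fam.SS
import Fermat.Agent.S52.Fam.Irr
import Fermat.Agent.S52.Fam.Cong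
import Fermat.Agent.S52.Fam.EquivInst
import Fermat.Agent.S52.Tr.SpecFinal

set_option autoImplicit false
open WeierstrassCurve WeierstrassCurve.Affine WeierstrassCurve.Affine.Point
open CuspForm ModularFormClass UpperHalfPlane
open WeierstrassCurve

namespace Fermat.Agent.S52

/-- Homogeneous covariance of Klein's `H` in the sign shape used by `Fam.cong_of`. -/
theorem covH_neg {K : Type*} [CommRing K] (x y m n : K) :
    Fam.kH (m * x + n * Fam.wX x y) (m * y + n * Fam.wY x y)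
      = -Fam.famC4h (-Fam.kH x y) (-Fam.kT x y) m n :=
  neg_eq_iff_eq_neg.mp (Fam.cov_H_h x y m n)

/-- Homogeneous covariance of Klein's `T` in the sign shape used by `Fam.cong_of`. -/
theorem covT_neg {K : Type*} [CommRing K] (x y m n : K) :
    Fam.kT (m * x + n * Fam.wX x y) (m * y + n * Fam.wY x y)
      = -Fam.famC6h (-Fam.kH x y) (-Fam.kT x y) m n :=
  neg_eq_iff_eq_neg.mp
    (Fam.cov_T_h_of (Fam.covHUniv_of (fun x y m n => Fam.cov_H_h x y m n)) x y m n)

/-- The four bricks for the family `v = m • v₀ + n • w(v₀)` through a Klein point `v₀`. -/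
theorem familyBricks :
    Glue.FamilyBricks (fun c4 c6 m n : ℤ => Fam.famC4h c4 c6 m n)
      (fun c4 c6 m n : ℤ => Fam.famC6h c4 c6 m n) where
  base := fun c4 c6 k N h => ⟨Fam.famC4h_base c4 c6 k N h, Fam.famC6h_base c4 c6 k N h⟩
  ss := Fermat.Agent.S52.Fam.ss_brick
  irr := Fermat.Agent.S52.Fam.Irr.irr_brick
  cong := fun c4 c6 m n ℓ _ h2 h3 h5 hΔ hΔ' => by
    classical
    exact Fam.cong_of ℓ (AlgebraicClosure (ZMod ℓ))
      (Tr.SpecFinal.trStatement' ℓ _ h2)
      (Fam.EquivInst.equivStatement ℓ _ h2 h3 h5 covH_neg covT_neg)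
      covH_neg covT_neg c4 c6 m n h2 h3 h5 hΔ hΔ'

theorem result (W : WeierstrassCurve ℤ) (hΔ : W.Δ ≠ 0) (hW : W.IsSemistableModel) (h5 : W.ModRepIsIrreducible 5) : ∃ W' : WeierstrassCurve ℤ, W'.Δ ≠ 0 ∧ W'.IsSemistableModel ∧ W'.ModRepIsIrreducible 3 ∧ ∀ ℓ : ℕ, ℓ.Prime → W.IsGoodPrimeFor ℓ → W'.IsGoodPrimeFor ℓ → ℓ ≠ 5 → (5 : ℤ) ∣ (W'.apOfModel ℓ - W.apOfModel ℓ) := by
  exact Glue.result_of_bricks familyBricks W hΔ hW

end Fermat.Agent.S52
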