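import Fermat.Statements.S54
import Fermat.Agent.S54.Frobenius

set_option autoImplicit false
open GaloisRep GaloisRep.DeformationRingData

namespace Fermat.Agent.S54

open Polynomial in
theorem pi_T_mem_range {𝒪 : Type} [CommRing 𝒪] [IsDomain 𝒪] [IsDiscreteValuationRing 𝒪] [IsAdicComplete (IsLocalRing.maximalIdeal 𝒪) 𝒪] {ρbar : ResidualGaloisRep (IsLocalRing.ResidueField 𝒪)} {𝒟 : ∀ ⦃A : Type⦄ [CommRing A] [IsLocalRing A] [Algebra 𝒪 A], GaloisRepAdic A → Prop} (D : GaloisRep.DeformationRingData 𝒪 ρbar 𝒟) {N : ℕ} [NeZero N] {S : Set ℕ} {θ : CuspForm.heckeAlgebra N 2 S →+* IsLocalRing.ResidueField 𝒪} {T : Type} [CommRing T] [IsLocalRing T] [IsNoetherianRing T] [IsAdicComplete (IsLocalRing.maximalIdeal T) T] [Algebra 𝒪 T] [IsLocalHom (algebraMap 𝒪 T)] [Module.Finite 𝒪 T] [Module.Free 𝒪 T] (H : CuspForm.HeckeGaloisRepDatum N S 𝒪 θ T)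
    (φ : D.R →ₐ[𝒪] T) (hφ : IsLocalHom (φ : D.R →+* T))
    (hEq : (D.ρ.baseChangeAlong (φ : D.R →+* T) hφ).IsEquiv H.ρ)
    {ℓ : ℕ} (hℓ : ℓ.Prime) (hℓN : ¬ ℓ ∣ N) (hℓS : ℓ ∉ S) :
    H.π (CuspForm.heckeAlgebra.T hℓ hℓN hℓS) ∈ φ.range := by
  obtain ⟨A, σ, hA, hσ⟩ := Fermat.Agent.S54.Frobenius.exists_frobenius hℓ
  have h1 := H.charpoly_frob ℓ hℓ hℓN hℓS A hA σ hσ
  obtain ⟨e⟩ := hEq
  have h2 : H.ρ.ρ σ =
      e.toLinearEquiv.conj ((D.ρ.baseChangeAlong (φ : D.R →+* T) hφ).ρ σ) := by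
    refine LinearMap.ext fun y => ?_
    rw [LinearEquiv.conj_apply_apply]
    have h3 := e.map_apply σ (e.toLinearEquiv.symm y)
    rw [LinearEquiv.apply_symm_apply] at h3
    exact h3.symm
  have h3 : LinearMap.charpoly ((D.ρ.baseChangeAlong (φ : D.R →+* T) hφ).ρ σ) =
      (LinearMap.charpoly (D.ρ.ρ σ)).map (φ : D.R →+* T) := by
    let _ : Algebra D.R T := (φ : D.R →+* T).toAlgebra
    exact LinearMap.charpoly_baseChange (D.ρ.ρ σ) T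
  rw [h2, LinearEquiv.charpoly_conj, h3] at h1
  have h4 := congrArg (fun p => p.coeff 1) h1
  simp only [coeff_map, coeff_add, coeff_sub, coeff_X_pow, coeff_C_mul, coeff_X_one, coeff_C] at h4
  norm_num at h4
  refine ⟨-(LinearMap.charpoly (D.ρ.ρ σ)).coeff 1, ?_⟩
  show φ (-(LinearMap.charpoly (D.ρ.ρ σ)).coeff 1) = _
  rw [map_neg, h4, neg_neg]

theorem result {𝒪 : Type} [CommRing 𝒪] [IsDomain 𝒪] [IsDiscreteValuationRing 𝒪] [IsAdicComplete (IsLocalRing.maximalIdeal 𝒪) 𝒪] {ρbar : ResidualGaloisRep (IsLocalRing.ResidueField 𝒪)} {𝒟 : ∀ ⦃A : Type⦄ [CommRing A] [IsLocalRing A] [Algebra 𝒪 A], GaloisRepAdic A → Prop} (D : GaloisRep.DeformationRingData 𝒪 ρbar 𝒟) {N : ℕ} [NeZero N] {S : Set ℕ} {θ : CuspForm.heckeAlgebra N 2 S →+* IsLocalRing.ResidueField 𝒪} {T : Type} [CommRing T] [IsLocalRing T] [IsNoetherianRing T] [IsAdicComplete (IsLocalRing.maximalIdeal T) T] [Algebra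 𝒪 T] [IsLocalHom (algebraMap 𝒪 T)] [Module.Finite 𝒪 T] [Module.Free 𝒪 T] (H : CuspForm.HeckeGaloisRepDatum N S 𝒪 θ T) (hS : ∀ q : ℕ, q.Prime → q ∣ N → q ∈ S) (h𝒟 : 𝒟 H.ρ) (hres : H.ρ.residual.IsEquiv (ρbar.baseChangeAlong (IsLocalRing.ResidueField.map (algebraMap 𝒪 T)))) : ∃ φ : D.R →ₐ[𝒪] T, Function.Surjective φ ∧ ∃ hφ : IsLocalHom (φ : D.R →+* T), (D.ρ.baseChangeAlong (φ : D.R →+* T) hφ).IsEquiv H.ρ := by
  obtain ⟨φ, ⟨hφ, hEq⟩, -⟩ := D.universal T H.residue_surjective H.ρ h𝒟 hres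
  refine ⟨φ, ?_, hφ, hEq⟩
  have hrange : ∀ (x : Module.End ℂ (CuspForm (CongruenceSubgroup.Gamma0 N) 2))
      (hx : x ∈ CuspForm.heckeAlgebra N 2 S), H.π ⟨x, hx⟩ ∈ φ.range := by
    intro x hx
    induction hx using Algebra.adjoin_induction with
    | mem x hx =>
      rcases hx with ⟨ℓ, hℓ, hℓN, hℓS, rfl⟩ | ⟨q, hqN, hq, hqS, rfl⟩
      · exact pi_T_mem_range D H φ hφ hEq hℓ hℓN hℓS
      · exact absurd (hS q hq hqN) hqS
    | algebraMap r =>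
      have h1 : (⟨algebraMap ℤ _ r, Subalgebra.algebraMap_mem _ r⟩ : CuspForm.heckeAlgebra N 2 S) =
          ((r : ℤ) : CuspForm.heckeAlgebra N 2 S) := by
        apply Subtype.ext
        simp
      rw [h1, map_intCast]
      exact intCast_mem _ r
    | add x y hx hy ihx ihy =>
      have h1 : (⟨x + y, add_mem hx hy⟩ : CuspForm.heckeAlgebra N 2 S) = ⟨x, hx⟩ + ⟨y, hy⟩ := rfl
      rw [h1, map_add]
      exact add_mem ihx ihy
    | mul x y hx hy ihx ihy =>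
      have h1 : (⟨x * y, mul_mem hx hy⟩ : CuspForm.heckeAlgebra N 2 S) = ⟨x, hx⟩ * ⟨y, hy⟩ := rfl
      rw [h1, map_mul]
      exact mul_mem ihx ihy
  have htop : φ.range = ⊤ := by
    rw [eq_top_iff, ← H.adjoin_range_π]
    refine Algebra.adjoin_le ?_
    rintro _ ⟨t, rfl⟩
    exact hrange t.1 t.2
  intro y
  have hy : y ∈ φ.range := htop ▸ Algebra.mem_top
  exact hy

end Fermat.Agent.S54
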