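import Fermat.Statements.S55
import Fermat.Agent.S55.Base.BaseC4
import Fermat.Agent.S55.Base.C4GenInst
import Fermat.Agent.S55.Base.CapGen
import Fermat.Agent.CFT.Rec.Final

set_option autoImplicit false
set_option autoImplicit false
open CategoryTheory Module groupCohomology ExtCitation
open groupCohomology

namespace Fermat.Agent.S55

theorem result
    {p : ℕ} [Fact p.Prime] (hp2 : p ≠ 2) (S : Finset Nat.Primes) (hpS : pPrime p ∈ S)
    (M : Rep (ZMod p) (AlgebraicClosure ℚ ≃ₐ[ℚ] AlgebraicClosure ℚ))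
    [FiniteDimensional (ZMod p) M]
    (hsm : ∀ m : M, ∃ F : IntermediateField ℚ (AlgebraicClosure ℚ), FiniteDimensional ℚ F ∧
      ∀ s ∈ F.fixingSubgroup, M.ρ s m = m)
    (hMur : ∀ q : Nat.Primes, q ∉ S → ∀ A : ValuationSubring (AlgebraicClosure ℚ),
      A.LiesOverPrime (q : ℕ) → ∀ g ∈ A.inertiaSubgroupIn ℚ, M.ρ g = 1) :
    ∃ B : sha₁ S (M.dualTwist (cycloChar p)) →ₗ[ZMod p] sha₂ S M →ₗ[ZMod p] ZMod p,
      (∀ y, (∀ x, B y x = 0) → y = 0) ∧ (∀ x, (∀ y, B y x = 0) → x = 0) :=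
  Fermat.Agent.S55.Wire.result_of_bricks3 hp2 S hpS
    (Fermat.Agent.S55.Base.BaseCase.bricks3_of_gen hp2 hpS
      (Fermat.Agent.CFT.Rec.Final.exists_isRec p hp2 S hpS)
      (fun _ K hK hc => Fermat.Agent.S55.Base.CapGen.capGen_M0 hpS K hK hc)
      (fun I K _ hK hc => by
        obtain ⟨ζ, hζ⟩ :=
          Fermat.Agent.CFT.Global.CountAbs.exists_primitiveRoot_of_cycloField_le (p := p) K hc
        obtain ⟨F⟩ := Fermat.Agent.S55.Base.C4Principal.nonempty_ufam p S K ζ hζ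
        obtain ⟨R⟩ := Fermat.Agent.S55.Shapiro.Retr.nonempty K.fixingSubgroup
        exact ⟨ζ, hζ, F, R, Fermat.Agent.S55.Base.C4GenQ.thetaFam_gen I hpS hK hζ F R⟩))
    M hsm hMur

end Fermat.Agent.S55
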