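import Fermat.Statements.S57
import Fermat.Agent.S57.PSReg
import Fermat.Agent.S57.Transfer
import Fermat.Agent.S57.CoreAlt
import Fermat.Agent.S57.Wiring

set_option autoImplicit false
open Algebra Algebra.PatchingLevel

namespace Fermat.Agent.S57

theorem result
    {𝒪 : Type} [CommRing 𝒪] [IsDomain 𝒪] [IsDiscreteValuationRing 𝒪]
    {r : ℕ} {R : Type} [CommRing R] [Algebra 𝒪 R]
    {M : Type} [AddCommGroup M] [Module R M] [Nontrivial M]
    (L : Algebra.PatchingLevel 𝒪 r R M ⊥) :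
    Module.Free R M ∧ Module.annihilator R M = ⊥ ∧
      RingHom.ker L.ψ = Ideal.span (Set.range fun i : Fin r => L.φ (MvPowerSeries.X i)) := by
  classical
  obtain ⟨ϖ, hϖ⟩ := IsDiscreteValuationRing.exists_irreducible 𝒪
  have hmax𝒪 : IsLocalRing.maximalIdeal 𝒪 = Ideal.span {ϖ} := hϖ.maximalIdeal_eq
  have hϖreg : IsSMulRegular 𝒪 ϖ := by
    intro a b hab
    exact mul_left_cancel₀ hϖ.ne_zero hab
  let ts : List (MvPowerSeries (Fin r) 𝒪) :=
    List.ofFn (fun j : Fin r => (MvPowerSeries.X j : MvPowerSeries (Fin r) 𝒪)) ++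
      [MvPowerSeries.C ϖ]
  have hts : RingTheory.Sequence.IsWeaklyRegular (MvPowerSeries (Fin r) 𝒪) ts :=
    PSReg.isWeaklyRegular_X_append r hϖreg
  have hmax : Ideal.ofList ts = IsLocalRing.maximalIdeal (MvPowerSeries (Fin r) 𝒪) :=
    PSReg.ofList_eq_maximalIdeal r hmax𝒪
  have := Transfer.finite_N L
  have := Transfer.nontrivial_N L
  have hys : RingTheory.Sequence.IsWeaklyRegular L.N (ts.map L.φ) :=
    Transfer.isWeaklyRegular_map L ts hts
  have hmem : ∀ y ∈ ts.map L.φ, y ∈ IsLocalRing.maximalIdeal (MvPowerSeries (Fin r) 𝒪) :=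
    Transfer.map_mem_maximalIdeal L hϖ.not_isUnit
  have hreg : RingTheory.Sequence.IsRegular L.N (ts.map L.φ) :=
    RingTheory.Sequence.IsRegular.of_isWeaklyRegular_of_mem_maximalIdeal L.N hmem hys
  have hlen : ts.length = r + 1 := by simp [ts]
  have hfree : Module.Free (MvPowerSeries (Fin r) 𝒪) L.N :=
    CoreAlt.free_of_isRegular_of_span (r + 1) (MvPowerSeries (Fin r) 𝒪) L.N ts.toFinset
      (ts.map L.φ) (hlen ▸ List.toFinset_card_le ts)
      (by rw [List.coe_toFinset]; exact hmax) (by rw [List.length_map, hlen]) hreg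
  exact Wiring.result_of_free L

end Fermat.Agent.S57
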